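import Fermat.Agent.S48.Fin.Lift
import Fermat.Agent.FD.Main

/-!
# S48, FIN-4 : one complex representation which is good at all `r ∤ N`

Sketch.  `exists_complex_rep hf 0` gives `ℓ₁, ρ₁`; `exists_complex_rep hf ℓ₁` gives `ℓ₂ > ℓ₁, ρ₂`.
(a) `(tr, det) ρ₁ σ = (tr, det) ρ₂ σ` for ALL `σ`: `FD.exists_frobenius_pow_eq (L₁ ⊔ L₂) (N ℓ₁ ℓ₂) σ` gives a prime `p ∤ N ℓ₁ ℓ₂`, a Frobenius `σ'` at `p`, `b` with `σ'^b = σ` on `L₁ ⊔ L₂`:
`ρ_i σ = (ρ_i σ')^b`; `(tr, det) ρ₁ σ' = (a_p, ε p) = (tr, det) ρ₂ σ'`; `tr (X^b)`, `det (X^b)` only depend on `(tr X, det X)` (`trace_pow_congr`: Cayley-Hamilton recursion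
`tr X^{b+2} = tr X · tr X^{b+1} - det X · tr X^b`).
(b) `A` over `ℓ₁`, `σ` in the inertia group: `ρ₂ σ = 1` (`ℓ₁ ∤ N ℓ₂`), so `tr ρ₁ σ = 2`, `det ρ₁ σ = 1`: `(ρ₁ σ - 1)² = 0` (Cayley-Hamilton); `ρ₁ σ` has finite order `k`:
`1 = (1 + n)^k = 1 + k n`, so `n = 0`.
(c) `σ` Frobenius at `ℓ₁`: `(tr, det) ρ₁ σ = (tr, det) ρ₂ σ = (a_{ℓ₁}, ε ℓ₁)`.
-/

set_option autoImplicit false

open CongruenceSubgroup
open scoped MatrixGroups

namespace Fermat.Agent.S48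

variable {N : ℕ} [NeZero N] {ε : DirichletCharacter ℂ N} {f : CuspForm (Gamma1 N) 1}

theorem glue_ch2 {R : Type*} [CommRing R] (X : Matrix (Fin 2) (Fin 2) R) :
    X ^ 2 = X.trace • X - X.det • (1 : Matrix (Fin 2) (Fin 2) R) := by
  rw [pow_two]
  ext i j
  fin_cases i <;> fin_cases j <;>
    simp [Matrix.mul_apply, Fin.sum_univ_two, Matrix.trace_fin_two, Matrix.det_fin_two] <;> ring

theorem glue_trace_rec {R : Type*} [CommRing R] (X : Matrix (Fin 2) (Fin 2) R) (b : ℕ) :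
    (X ^ (b + 2)).trace = X.trace * (X ^ (b + 1)).trace - X.det * (X ^ b).trace := by
  rw [pow_add, glue_ch2, mul_sub, Matrix.mul_smul, Matrix.mul_smul, mul_one, ← pow_succ,
    Matrix.trace_sub, Matrix.trace_smul, Matrix.trace_smul, smul_eq_mul, smul_eq_mul]

theorem trace_pow_congr {R : Type*} [CommRing R] (X Y : Matrix (Fin 2) (Fin 2) R)
    (ht : X.trace = Y.trace) (hd : X.det = Y.det) (b : ℕ) : (X ^ b).trace = (Y ^ b).trace := by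
  have key : ∀ b : ℕ, (X ^ b).trace = (Y ^ b).trace ∧ (X ^ (b + 1)).trace = (Y ^ (b + 1)).trace := by
    intro b
    induction b with
    | zero => exact ⟨by rw [pow_zero, pow_zero], by rw [zero_add, pow_one, pow_one, ht]⟩
    | succ b ih =>
      refine ⟨ih.2, ?_⟩
      rw [glue_trace_rec, glue_trace_rec, ih.1, ih.2, ht, hd]
  exact (key b).1

theorem eq_one_of_trace_det (X : Matrix (Fin 2) (Fin 2) ℂ) (ht : X.trace = 2) (hd : X.det = 1)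
    (k : ℕ) (hk : 0 < k) (hX : X ^ k = 1) : X = 1 := by
  set n : Matrix (Fin 2) (Fin 2) ℂ := X - 1 with hn
  have hXn : X = 1 + n := by rw [hn]; abel
  have hn2 : n * n = 0 := by
    have h := glue_ch2 X
    rw [ht, hd, one_smul] at h
    have : n * n = X ^ 2 - (2 : ℂ) • X + 1 := by
      rw [hn, two_smul]
      noncomm_ring
    rw [this, h]
    abel
  have hpow : ∀ j : ℕ, X ^ j = 1 + (j : ℂ) • n := by
    intro j
    induction j with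
    | zero => simp
    | succ j ih =>
      rw [pow_succ, ih]
      nth_rewrite 1 [hXn]
      rw [add_mul, mul_add, mul_add, one_mul, one_mul, mul_one, smul_mul_assoc, hn2, smul_zero,
        add_zero]
      push_cast
      rw [add_smul, one_smul]
      abel
  have h1 := hpow k
  rw [hX] at h1
  have h2 : (k : ℂ) • n = 0 := by
    have := h1.symm
    rwa [add_eq_left] at this
  have hk0 : (k : ℂ) ≠ 0 := by exact_mod_cast hk.ne'
  have h3 : n = 0 := (smul_eq_zero.1 h2).resolve_left hk0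
  rw [hXn, h3, add_zero]

/-- a power of `σ` fixes a given finite level. -/
theorem glue_exists_pow_fix (L : IntermediateField ℚ Qb) [FiniteDimensional ℚ L] (σ : GQ) :
    ∃ k : ℕ, 0 < k ∧ ∀ x ∈ L, (σ ^ k) x = x := by
  have hfin : Finite (L →ₐ[ℚ] Qb) := inferInstance
  obtain ⟨i, j, hij, h⟩ := Finite.exists_ne_map_eq_of_infinite
    (fun j : ℕ => ((σ ^ j : GQ) : Qb →ₐ[ℚ] Qb).comp L.val)
  have key : ∀ i j : ℕ, i < j →
      ((σ ^ i : GQ) : Qb →ₐ[ℚ] Qb).comp L.val = ((σ ^ j : GQ) : Qb →ₐ[ℚ] Qb).comp L.val →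
      ∃ k : ℕ, 0 < k ∧ ∀ x ∈ L, (σ ^ k) x = x := by
    intro i j hij h
    refine ⟨j - i, by omega, fun x hx => ?_⟩
    have h1 := DFunLike.congr_fun h ⟨x, hx⟩
    have h2 : (σ ^ i) x = (σ ^ j) x := h1
    have h3 : σ ^ j = σ ^ i * σ ^ (j - i) := by rw [← pow_add]; congr 1; omega
    rw [h3, AlgEquiv.mul_apply] at h2
    exact ((σ ^ i).injective h2).symm
  rcases lt_or_gt_of_ne hij with h' | h'
  · exact key i j h' h
  · exact key j i h' h.symm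

theorem glue_map_eq {M : Type} [Group M] {ρ : GQ →* M} {L : IntermediateField ℚ Qb}
    (hL : ∀ σ : GQ, (∀ x ∈ L, σ x = x) → ρ σ = 1) {σ τ : GQ} (h : ∀ x ∈ L, σ x = τ x) :
    ρ σ = ρ τ := by
  have h1 : ρ (τ⁻¹ * σ) = 1 := by
    apply hL
    intro x hx
    rw [AlgEquiv.mul_apply, h x hx]
    exact τ.symm_apply_apply x
  rw [map_mul, map_inv, inv_mul_eq_one] at h1
  exact h1.symm

theorem exists_rep (hf : IsEigen N ε f) :
    ∃ ρ : GQ →* GL (Fin 2) ℂ, GaloisFactorsThroughFiniteLevel ρ ∧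
      ∀ r : ℕ, r.Prime → ¬ r ∣ N → GoodAt ρ r (ModularFormClass.qCoeff f r) (ε (r : ZMod N)) := by
  obtain ⟨ℓ₁, hℓ₁, -, ρ₁, hlev₁, hgood₁⟩ := exists_complex_rep hf 0
  obtain ⟨ℓ₂, hℓ₂, hlt, ρ₂, hlev₂, hgood₂⟩ := exists_complex_rep hf ℓ₁
  refine ⟨ρ₁, hlev₁, fun r hr hrN => ?_⟩
  by_cases hrℓ : r ∣ N * ℓ₁
  swap
  · exact hgood₁ r hr hrℓ
  have hrl : r = ℓ₁ := by
    rcases (Nat.Prime.dvd_mul hr).1 hrℓ with h | h
    · exact absurd h hrN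
    · exact (Nat.prime_dvd_prime_iff_eq hr hℓ₁).1 h
  subst hrl
  obtain ⟨L₁, hfin₁, hL₁⟩ := hlev₁
  obtain ⟨L₂, hfin₂, hL₂⟩ := hlev₂
  have hN0 : N ≠ 0 := NeZero.ne N
  -- (a)
  have ha : ∀ σ : GQ, (ρ₁ σ : Matrix (Fin 2) (Fin 2) ℂ).trace = (ρ₂ σ : Matrix (Fin 2) (Fin 2) ℂ).trace ∧
      (ρ₁ σ : Matrix (Fin 2) (Fin 2) ℂ).det = (ρ₂ σ : Matrix (Fin 2) (Fin 2) ℂ).det := by
    intro σ
    obtain ⟨p, A, hp, hpB, hA, ⟨σ', hσ'⟩, hall⟩ := FD.exists_frobenius_pow_eq (L₁ ⊔ L₂) (N * r * ℓ₂)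
      (Nat.mul_ne_zero (Nat.mul_ne_zero hN0 hr.ne_zero) hℓ₂.ne_zero) σ
    obtain ⟨⟨b, hb⟩, -⟩ := hall σ' hσ'
    have hp1 : ¬ p ∣ N * r := fun h => hpB (Dvd.dvd.mul_right h ℓ₂)
    have hp2 : ¬ p ∣ N * ℓ₂ := fun h => hpB (by
      obtain ⟨c, hc⟩ := h
      exact ⟨c * r, by rw [mul_right_comm, hc]; ring⟩)
    have e1 : ρ₁ σ = ρ₁ σ' ^ b := by
      rw [← map_pow]
      exact (glue_map_eq hL₁ fun x hx => hb x (le_sup_left (a := L₁) (b := L₂) hx)).symm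
    have e2 : ρ₂ σ = ρ₂ σ' ^ b := by
      rw [← map_pow]
      exact (glue_map_eq hL₂ fun x hx => hb x (le_sup_right (a := L₁) (b := L₂) hx)).symm
    obtain ⟨t1, d1⟩ := ((hgood₁ p hp hp1) A hA).2 σ' hσ'
    obtain ⟨t2, d2⟩ := ((hgood₂ p hp hp2) A hA).2 σ' hσ'
    rw [e1, e2, Units.val_pow_eq_pow_val, Units.val_pow_eq_pow_val]
    exact ⟨trace_pow_congr _ _ (t1.trans t2.symm) (d1.trans d2.symm) b, by
      rw [Matrix.det_pow, Matrix.det_pow, d1, d2]⟩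
  have hr2 : ¬ r ∣ N * ℓ₂ := by
    intro h
    rcases (Nat.Prime.dvd_mul hr).1 h with h | h
    · exact hrN h
    · exact absurd ((Nat.prime_dvd_prime_iff_eq hr hℓ₂).1 h) hlt.ne
  intro A hA
  obtain ⟨hin, hfr⟩ := (hgood₂ r hr hr2) A hA
  refine ⟨fun σ hσ => ?_, fun σ hσ => ?_⟩
  · obtain ⟨k, hk, hfix⟩ := glue_exists_pow_fix L₁ σ
    have h1 : (ρ₁ σ) ^ k = 1 := by rw [← map_pow]; exact hL₁ _ hfix
    obtain ⟨t, d⟩ := ha σ
    rw [hin σ hσ] at t d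
    apply Units.ext
    refine eq_one_of_trace_det _ (by rw [t]; simp) (by rw [d]; simp) k hk ?_
    rw [← Units.val_pow_eq_pow_val, h1]
    rfl
  · obtain ⟨t, d⟩ := ha σ
    obtain ⟨t2, d2⟩ := hfr σ hσ
    exact ⟨t.trans t2, d.trans d2⟩

end Fermat.Agent.S48
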