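import Fermat.Agent.S48.Fin.Roots

/-!
# S48, FIN-5 : irreducibility

Sketch.  `|a_p| ≤ 2` by `exists_exponent` (sum of two roots of unity), so `sharp_bound` applies: `wSum |a_p|² t ≤ LL t + C`.
Suppose `ρ` is reducible: there is a stable line; `G = ρ.range` is finite, Maschke: `ρ ≅ χ₁ ⊕ χ₂` (in a basis), `tr = χ₁ + χ₂`, `|χ_i| = 1`:
`∑_{g ∈ G} |tr g|² = 2 |G| + 2 Re ∑_g χ₁ χ̄₂ (g) ≥ 2 |G|` (the sum of a character over a finite group is `|G|` or `0`).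
For `τ` in the finite set of values of `|tr|²` on `G` let `S_τ = {x ∈ Gal(L/ℚ) : |tr ρ̃ x|² = τ}` (inversion stable: `tr g⁻¹ = conj (tr g)` for `g` of finite order).
The sets `P_τ = {p ∤ N : some Frobenius at p lies in S_τ} ⊆ {p : |a_p|² = τ}` are pairwise disjoint, so
`wSum |a_p|² t ≥ ∑_τ τ pSum P_τ t ≥ ∑_τ τ ((|S_τ|/|Gal| - δ) LL t - c_τ) ≥ (2 - δ ∑ τ) LL t - c`.  With `δ ∑ τ ≤ 1/2`: `(1/2) LL t ≤ C + c`: contradiction as `t → 1⁺`.
-/

set_option autoImplicit false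
set_option linter.unusedSectionVars false

open CongruenceSubgroup
open scoped MatrixGroups

namespace Fermat.Agent.S48

namespace Irred

/-- no stable line ⟹ irreducible. -/
theorem isIrreducible_of_no_line {G : Type} [Group G] (ρ : G →* GL (Fin 2) ℂ)
    (h : ¬ ∃ v : Fin 2 → ℂ, v ≠ 0 ∧
      ∀ g : G, ∃ c : ℂ, (ρ g : Matrix (Fin 2) (Fin 2) ℂ).mulVec v = c • v) :
    (Deformation.matrixRepresentation ρ).IsIrreducible := by
  have key : ∀ W : Subrepresentation (Deformation.matrixRepresentation ρ),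
      W.toSubmodule = ⊥ ∨ W.toSubmodule = ⊤ := by
    intro W
    by_contra hcon
    push Not at hcon
    obtain ⟨hbot, htop⟩ := hcon
    have h1 : Module.finrank ℂ W.toSubmodule < 2 := by
      have := Submodule.finrank_lt htop
      simpa using this
    have h2 : 0 < Module.finrank ℂ W.toSubmodule := by
      rw [Nat.pos_iff_ne_zero, Ne, Submodule.finrank_eq_zero]
      exact hbot
    have h3 : Module.finrank ℂ W.toSubmodule = 1 := by omega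
    obtain ⟨v, hv0, hv⟩ := finrank_eq_one_iff'.mp h3
    apply h
    refine ⟨v, fun h0 => hv0 (Subtype.ext h0), fun g => ?_⟩
    have hm := W.apply_mem_toSubmodule g v.2
    rw [Deformation.matrixRepresentation_apply] at hm
    obtain ⟨c, hc⟩ := hv ⟨_, hm⟩
    exact ⟨c, (congrArg Subtype.val hc).symm⟩
  refine { exists_pair_ne := ⟨⊥, ⊤, ?_⟩, eq_bot_or_eq_top := ?_ }
  · intro hbt
    have := congrArg Subrepresentation.toSubmodule hbt
    exact bot_ne_top this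
  · intro W
    rcases key W with h1 | h1
    · left; exact Subrepresentation.toSubmodule_injective h1
    · right; exact Subrepresentation.toSubmodule_injective h1

theorem eigen_rel (A : Matrix (Fin 2) (Fin 2) ℂ) (v : Fin 2 → ℂ) (hv : v ≠ 0) (c : ℂ)
    (h : A.mulVec v = c • v) : c ^ 2 - A.trace * c + A.det = 0 := by
  have h1 : (A - c • (1 : Matrix (Fin 2) (Fin 2) ℂ)).det = 0 := by
    rw [← Matrix.exists_mulVec_eq_zero_iff]
    refine ⟨v, hv, ?_⟩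
    rw [Matrix.sub_mulVec, h, Matrix.smul_mulVec, Matrix.one_mulVec, sub_self]
  rw [Matrix.det_fin_two] at h1
  rw [Matrix.det_fin_two, Matrix.trace_fin_two]
  simp at h1
  linear_combination h1

theorem re_sum_nonneg {G : Type*} [Group G] [Fintype G] (ψ : G →* ℂ) : 0 ≤ (∑ x, ψ x).re := by
  by_cases h : ∀ y, ψ y = 1
  · simp [h]
  · push Not at h
    obtain ⟨y, hy⟩ := h
    have h1 : ∑ x, ψ x = ψ y * ∑ x, ψ x := by
      rw [Finset.mul_sum, ← Equiv.sum_comp (Equiv.mulLeft y)]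
      apply Finset.sum_congr rfl
      intro x _
      rw [← map_mul]
      rfl
    have h2 : (ψ y - 1) * ∑ x, ψ x = 0 := by
      rw [sub_mul, one_mul, ← h1, sub_self]
    rw [(mul_eq_zero.1 h2).resolve_left (sub_ne_zero.2 hy)]
    simp

theorem norm_hom_eq_one {G : Type*} [Group G] [Fintype G] (a : G →* ℂ) (x : G) : ‖a x‖ = 1 := by
  apply Complex.norm_eq_one_of_pow_eq_one (n := Fintype.card G) _ Fintype.card_ne_zero
  rw [← map_pow, pow_card_eq_one, map_one]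

theorem hom_inv_eq_conj {G : Type*} [Group G] [Fintype G] (a : G →* ℂ) (x : G) :
    a x⁻¹ = (starRingEnd ℂ) (a x) := by
  have h1 : a x⁻¹ * a x = 1 := by rw [← map_mul, inv_mul_cancel, map_one]
  rw [← Complex.inv_eq_conj (norm_hom_eq_one a x)]
  exact eq_inv_of_mul_eq_one_left h1

theorem sum_normSq_ge {G : Type*} [Group G] [Fintype G] (a b : G →* ℂ) :
    2 * (Fintype.card G : ℝ) ≤ ∑ x, ‖a x + b x‖ ^ 2 := by
  let ψ : G →* ℂ := a * ((starRingEnd ℂ : ℂ →+* ℂ) : ℂ →* ℂ).comp b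
  have h1 : ∀ x, ‖a x + b x‖ ^ 2 = 2 + 2 * (ψ x).re := by
    intro x
    rw [Complex.sq_norm, Complex.normSq_add, ← Complex.sq_norm, ← Complex.sq_norm,
      norm_hom_eq_one, norm_hom_eq_one]
    have : ψ x = a x * (starRingEnd ℂ) (b x) := rfl
    rw [this]
    ring
  simp only [h1]
  rw [Finset.sum_add_distrib, ← Finset.mul_sum, ← Complex.re_sum]
  have := re_sum_nonneg ψ
  simp only [Finset.sum_const, Finset.card_univ, nsmul_eq_mul]
  linarith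

theorem exists_factor {M : Type} [Group M] (ρ : GQ →* M) (h : GaloisFactorsThroughFiniteLevel ρ) :
    ∃ (L₀ : IntermediateField ℚ Qb) (_ : FiniteDimensional ℚ L₀) (_ : IsGalois ℚ L₀)
      (ρ' : (L₀ ≃ₐ[ℚ] L₀) →* M), ∀ σ : GQ, ρ' (AlgEquiv.restrictNormalHom L₀ σ) = ρ σ := by
  obtain ⟨L, hfd, hL⟩ := h
  let L₀ : IntermediateField ℚ Qb := IntermediateField.normalClosure ℚ L Qb
  have hA1 : Algebra.IsAlgebraic ℚ Qb := AlgebraicClosure.isAlgebraic ℚ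
  have hA2 : IsAlgClosure ℚ Qb := ⟨inferInstance, hA1⟩
  have hQb : Normal ℚ Qb := IsAlgClosure.normal ℚ Qb
  have hn : Normal ℚ L₀ := normalClosure.normal ℚ L Qb
  have hfd0 : FiniteDimensional ℚ L₀ := inferInstance
  have hgal : IsGalois ℚ L₀ := ⟨⟩
  have hle : L ≤ L₀ := IntermediateField.le_normalClosure L
  have hker : (AlgEquiv.restrictNormalHom (F := ℚ) (K₁ := Qb) L₀).ker ≤ ρ.ker := by
    intro σ hσ
    rw [MonoidHom.mem_ker] at hσ ⊢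
    apply hL
    intro x hx
    have h1 := AlgEquiv.restrictNormal_commutes σ L₀ ⟨x, hle hx⟩
    have h2 : σ.restrictNormal L₀ = 1 := hσ
    rw [h2] at h1
    exact h1.symm
  refine ⟨L₀, hfd0, hgal, (AlgEquiv.restrictNormalHom (F := ℚ) (K₁ := Qb) L₀).liftOfSurjective
    (AlgEquiv.restrictNormalHom_surjective Qb) ⟨ρ, hker⟩, fun σ => ?_⟩
  exact MonoidHom.liftOfRightInverse_comp_apply _ _ _ ⟨ρ, hker⟩ σ

theorem summable_rpow {t : ℝ} (ht : 1 < t) : Summable (fun n : ℕ => (n : ℝ) ^ (-t)) :=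
  Real.summable_nat_rpow.2 (by linarith)

theorem pSum_eq (S : Set ℕ) (t : ℝ) :
    pSum S t = ∑' n : ℕ, S.indicator (fun n : ℕ => (n : ℝ) ^ (-t)) n := by
  unfold pSum
  exact tsum_subtype S (fun n : ℕ => (n : ℝ) ^ (-t))

theorem wSum_eq (w : ℕ → ℝ) (t : ℝ) :
    wSum w t = ∑' n : ℕ, {p : ℕ | p.Prime}.indicator (fun n : ℕ => w n * (n : ℝ) ^ (-t)) n := by
  unfold wSum
  exact tsum_subtype {p : ℕ | p.Prime} (fun n : ℕ => w n * (n : ℝ) ^ (-t))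

theorem sum_mul_pSum_le (w : ℕ → ℝ) (W : ℝ) (hw0 : ∀ p : ℕ, p.Prime → 0 ≤ w p)
    (hwW : ∀ p : ℕ, p.Prime → w p ≤ W)
    (T : Finset ℝ) (P : ℝ → Set ℕ) (hP : ∀ τ ∈ T, ∀ p ∈ P τ, p.Prime ∧ w p = τ) {t : ℝ}
    (ht : 1 < t) : ∑ τ ∈ T, τ * pSum (P τ) t ≤ wSum w t := by
  classical
  have hs := summable_rpow ht
  have hsi : ∀ S : Set ℕ, Summable (S.indicator (fun n : ℕ => (n : ℝ) ^ (-t))) :=
    fun S => hs.indicator S
  have hW0 : 0 ≤ W := (hw0 2 Nat.prime_two).trans (hwW 2 Nat.prime_two)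
  have hR : ∀ n, 0 ≤ {p : ℕ | p.Prime}.indicator (fun n : ℕ => w n * (n : ℝ) ^ (-t)) n :=
    fun n => Set.indicator_nonneg (fun n hn => mul_nonneg (hw0 n hn) (by positivity)) n
  have hsw : Summable ({p : ℕ | p.Prime}.indicator (fun n : ℕ => w n * (n : ℝ) ^ (-t))) := by
    apply Summable.of_nonneg_of_le hR _ (hs.mul_left W)
    intro n
    by_cases hn : n ∈ {p : ℕ | p.Prime}
    · rw [Set.indicator_of_mem hn]
      exact mul_le_mul_of_nonneg_right (hwW n hn) (by positivity)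
    · rw [Set.indicator_of_notMem hn]
      positivity
  simp only [pSum_eq, wSum_eq, ← tsum_mul_left]
  rw [← Summable.tsum_finsetSum (fun τ _ => (hsi (P τ)).mul_left τ)]
  apply Summable.tsum_le_tsum _ (summable_sum (fun τ _ => (hsi (P τ)).mul_left τ)) hsw
  intro n
  by_cases hex : ∃ τ₀ ∈ T, n ∈ P τ₀
  · obtain ⟨τ₀, hτ₀, hn⟩ := hex
    rw [Finset.sum_eq_single_of_mem τ₀ hτ₀]
    · rw [Set.indicator_of_mem hn, Set.indicator_of_mem (show n ∈ {p : ℕ | p.Prime} from (hP τ₀ hτ₀ n hn).1),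
        (hP τ₀ hτ₀ n hn).2]
    · intro τ hτ hne
      rw [Set.indicator_of_notMem, mul_zero]
      intro hn'
      exact hne ((hP τ hτ n hn').2.symm.trans (hP τ₀ hτ₀ n hn).2)
  · push Not at hex
    rw [Finset.sum_eq_zero]
    · exact hR n
    · intro τ hτ
      rw [Set.indicator_of_notMem (hex τ hτ), mul_zero]

theorem LL_nonneg {t : ℝ} (h1 : 1 < t) (h2 : t ≤ 2) : 0 ≤ LL t := by
  unfold LL
  apply Real.log_nonneg
  rw [le_div_iff₀ (by linarith)]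
  linarith

theorem LL_unbounded (X : ℝ) : ∃ t ∈ Set.Ioc (1 : ℝ) 2, X < LL t := by
  refine ⟨1 + Real.exp (-(|X| + 1)), ⟨by have := Real.exp_pos (-(|X| + 1)); linarith, ?_⟩, ?_⟩
  · have : Real.exp (-(|X| + 1)) ≤ 1 := by
      rw [Real.exp_le_one_iff]
      have := abs_nonneg X
      linarith
    linarith
  · unfold LL
    rw [add_sub_cancel_left, one_div, ← Real.exp_neg, Real.log_exp, neg_neg]
    have := le_abs_self X
    linarith

theorem sum_fiber {X : Type*} [Fintype X] [DecidableEq X] (φ : X → ℝ) :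
    ∑ τ ∈ Finset.univ.image φ, τ * (Nat.card {x : X | φ x = τ} : ℝ) = ∑ x, φ x := by
  classical
  have h := Finset.sum_comp (s := (Finset.univ : Finset X)) (fun τ : ℝ => τ) φ
  rw [h]
  apply Finset.sum_congr rfl
  intro τ _
  rw [nsmul_eq_mul, mul_comm]
  congr 2
  rw [Nat.card_eq_fintype_card, ← Fintype.card_subtype]
  rfl

/-- Chebotarev with weights. -/
theorem weighted_cheb (L₀ : IntermediateField ℚ Qb) [FiniteDimensional ℚ L₀] [IsGalois ℚ L₀]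
    [Fintype (L₀ ≃ₐ[ℚ] L₀)]
    (φ : (L₀ ≃ₐ[ℚ] L₀) → ℝ) (hφ0 : ∀ x, 0 ≤ φ x) (hφinv : ∀ x, φ x⁻¹ = φ x) (B : ℕ) (hB : B ≠ 0)
    (w : ℕ → ℝ) (W : ℝ) (hw0 : ∀ p : ℕ, p.Prime → 0 ≤ w p) (hwW : ∀ p : ℕ, p.Prime → w p ≤ W)
    (hw : ∀ p : ℕ, p.Prime → ¬ p ∣ B → ∀ A : ValuationSubring Qb, A.LiesOverPrime p →
      ∀ σ : GQ, A.IsFrobeniusAt σ p → w p = φ (AlgEquiv.restrictNormalHom L₀ σ))
    (δ : ℝ) (hδ : 0 < δ) :
    ∃ c : ℝ, ∀ t ∈ Set.Ioc (1 : ℝ) 2,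
      ((∑ x, φ x) / (Nat.card (L₀ ≃ₐ[ℚ] L₀) : ℝ) - δ) * LL t - c ≤ wSum w t := by
  classical
  set T : Finset ℝ := Finset.univ.image φ with hT
  have hT0 : ∀ τ ∈ T, 0 ≤ τ := by
    intro τ hτ
    obtain ⟨x, -, rfl⟩ := Finset.mem_image.1 hτ
    exact hφ0 x
  set Sg : ℝ := ∑ τ ∈ T, τ with hSg
  have hSg0 : 0 ≤ Sg := Finset.sum_nonneg hT0
  set δ' : ℝ := δ / (1 + Sg) with hδ'
  have hδ'0 : 0 < δ' := by positivity
  have hδS : δ' * Sg ≤ δ := by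
    rw [hδ', div_mul_eq_mul_div, div_le_iff₀ (by positivity)]
    nlinarith
  have hch : ∀ τ : ℝ, ∃ c : ℝ, ∀ t ∈ Set.Ioc (1 : ℝ) 2,
      ((Nat.card {x : L₀ ≃ₐ[ℚ] L₀ | φ x = τ} : ℝ) / Nat.card (L₀ ≃ₐ[ℚ] L₀) - δ') * LL t - c ≤
        pSum {p : ℕ | p.Prime ∧ ¬ p ∣ B ∧ ∃ A : ValuationSubring Qb, A.LiesOverPrime p ∧
          ∃ σ : Qb ≃ₐ[ℚ] Qb, A.IsFrobeniusAt σ p ∧
            AlgEquiv.restrictNormalHom L₀ σ ∈ {x : L₀ ≃ₐ[ℚ] L₀ | φ x = τ}} t := by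
    intro τ
    exact Cheb.chebotarev_lower L₀ {x : L₀ ≃ₐ[ℚ] L₀ | φ x = τ}
      (fun g hg => (hφinv g).trans hg) δ' hδ'0 B hB
  choose c hc using hch
  refine ⟨∑ τ ∈ T, τ * c τ, fun t ht => ?_⟩
  have hLL : 0 ≤ LL t := LL_nonneg ht.1 ht.2
  have h1 := sum_mul_pSum_le w W hw0 hwW T
    (fun τ => {p : ℕ | p.Prime ∧ ¬ p ∣ B ∧ ∃ A : ValuationSubring Qb, A.LiesOverPrime p ∧
          ∃ σ : Qb ≃ₐ[ℚ] Qb, A.IsFrobeniusAt σ p ∧
            AlgEquiv.restrictNormalHom L₀ σ ∈ {x : L₀ ≃ₐ[ℚ] L₀ | φ x = τ}})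
    (by
      rintro τ - p ⟨hp, hpB, A, hA, σ, hσ, hmem⟩
      exact ⟨hp, (hw p hp hpB A hA σ hσ).trans hmem⟩) ht.1
  refine le_trans ?_ h1
  have h2 : ∑ τ ∈ T, τ * (((Nat.card {x : L₀ ≃ₐ[ℚ] L₀ | φ x = τ} : ℝ) / Nat.card (L₀ ≃ₐ[ℚ] L₀) - δ') *
      LL t - c τ) ≤ ∑ τ ∈ T, τ * pSum {p : ℕ | p.Prime ∧ ¬ p ∣ B ∧ ∃ A : ValuationSubring Qb,
        A.LiesOverPrime p ∧ ∃ σ : Qb ≃ₐ[ℚ] Qb, A.IsFrobeniusAt σ p ∧
            AlgEquiv.restrictNormalHom L₀ σ ∈ {x : L₀ ≃ₐ[ℚ] L₀ | φ x = τ}} t :=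
    Finset.sum_le_sum (fun τ hτ => mul_le_mul_of_nonneg_left (hc τ t ht) (hT0 τ hτ))
  refine le_trans ?_ h2
  have h3 : ∑ τ ∈ T, τ * (((Nat.card {x : L₀ ≃ₐ[ℚ] L₀ | φ x = τ} : ℝ) / Nat.card (L₀ ≃ₐ[ℚ] L₀) - δ') *
      LL t - c τ) = ((∑ τ ∈ T, τ * (Nat.card {x : L₀ ≃ₐ[ℚ] L₀ | φ x = τ} : ℝ)) /
        Nat.card (L₀ ≃ₐ[ℚ] L₀) - δ' * Sg) * LL t - ∑ τ ∈ T, τ * c τ := by
    rw [hSg, Finset.sum_div, Finset.mul_sum, ← Finset.sum_sub_distrib, Finset.sum_mul,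
      ← Finset.sum_sub_distrib]
    apply Finset.sum_congr rfl
    intro τ _
    ring
  rw [h3, hT, sum_fiber φ]
  have h4 : ((∑ x, φ x) / (Nat.card (L₀ ≃ₐ[ℚ] L₀) : ℝ) - δ) * LL t ≤
      ((∑ x, φ x) / (Nat.card (L₀ ≃ₐ[ℚ] L₀) : ℝ) - δ' * Sg) * LL t :=
    mul_le_mul_of_nonneg_right (by linarith) hLL
  linarith

end Irred

variable {N : ℕ} [NeZero N] {ε : DirichletCharacter ℂ N} {f : CuspForm (Gamma1 N) 1}

theorem Irred.norm_coeff_le_two (hf : IsEigen N ε f) (p : ℕ) (hp : p.Prime) (hpN : ¬ p ∣ N) :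
    ‖ModularFormClass.qCoeff f p‖ ≤ 2 := by
  obtain ⟨A, hA0, hA⟩ := exists_exponent hf
  set a := ModularFormClass.qCoeff f p with ha
  set e := ε (p : ZMod N) with he
  obtain ⟨s, hs⟩ : ∃ s : ℂ, s ^ 2 = a ^ 2 - 4 * e := IsAlgClosed.exists_pow_nat_eq _ (by norm_num)
  have h1 := hA p hp hpN ((a + s) / 2) (by
    rw [← ha, ← he]
    linear_combination (1 / 4 : ℂ) * hs)
  have h2 := hA p hp hpN ((a - s) / 2) (by
    rw [← ha, ← he]
    linear_combination (1 / 4 : ℂ) * hs)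
  have n1 := Complex.norm_eq_one_of_pow_eq_one h1 hA0.ne'
  have n2 := Complex.norm_eq_one_of_pow_eq_one h2 hA0.ne'
  have h3 : a = (a + s) / 2 + (a - s) / 2 := by ring
  calc ‖a‖ = ‖(a + s) / 2 + (a - s) / 2‖ := by rw [← h3]
    _ ≤ ‖(a + s) / 2‖ + ‖(a - s) / 2‖ := norm_add_le _ _
    _ = 2 := by rw [n1, n2]; norm_num

theorem isIrreducible_of_good (hf : IsEigen N ε f) (ρ : GQ →* GL (Fin 2) ℂ)
    (hlev : GaloisFactorsThroughFiniteLevel ρ)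
    (hgood : ∀ r : ℕ, r.Prime → ¬ r ∣ N →
      GoodAt ρ r (ModularFormClass.qCoeff f r) (ε (r : ZMod N))) :
    (Deformation.matrixRepresentation ρ).IsIrreducible := by
  classical
  apply Irred.isIrreducible_of_no_line
  rintro ⟨v, hv0, hv⟩
  obtain ⟨L₀, hfd, hgal, ρ', hρ'⟩ := Irred.exists_factor ρ hlev
  have hA1 : Algebra.IsAlgebraic ℚ Qb := AlgebraicClosure.isAlgebraic ℚ
  have hA2 : IsAlgClosure ℚ Qb := ⟨inferInstance, hA1⟩
  have hQb : Normal ℚ Qb := IsAlgClosure.normal ℚ Qb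
  have hsurj : Function.Surjective (AlgEquiv.restrictNormalHom (F := ℚ) (K₁ := Qb) L₀) :=
    AlgEquiv.restrictNormalHom_surjective Qb
  let _ : Fintype (L₀ ≃ₐ[ℚ] L₀) := Fintype.ofFinite _
  -- the eigenvalue character
  have hv' : ∀ x : L₀ ≃ₐ[ℚ] L₀, ∃ c : ℂ, (ρ' x : Matrix (Fin 2) (Fin 2) ℂ).mulVec v = c • v := by
    intro x
    obtain ⟨σ, rfl⟩ := hsurj x
    rw [hρ']
    exact hv σ
  choose c hc using hv'
  have hinj : ∀ a b : ℂ, a • v = b • v → a = b := by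
    intro a b hab
    have : (a - b) • v = 0 := by rw [sub_smul, hab, sub_self]
    exact sub_eq_zero.1 ((smul_eq_zero.1 this).resolve_right hv0)
  let χ₁ : (L₀ ≃ₐ[ℚ] L₀) →* ℂ :=
    { toFun := c
      map_one' := by
        apply hinj
        rw [← hc, map_one, Units.val_one, Matrix.one_mulVec, one_smul]
      map_mul' := by
        intro x y
        apply hinj
        rw [← hc, map_mul, Units.val_mul, ← Matrix.mulVec_mulVec, hc, Matrix.mulVec_smul, hc,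
          smul_smul, mul_comm] }
  let d : (L₀ ≃ₐ[ℚ] L₀) →* ℂ := Matrix.detMonoidHom.comp ((Units.coeHom _).comp ρ')
  let χ₂ : (L₀ ≃ₐ[ℚ] L₀) →* ℂ :=
    { toFun := fun x => d x / χ₁ x
      map_one' := by simp
      map_mul' := by
        intro x y
        rw [map_mul, map_mul, mul_div_mul_comm] }
  have hχ₁ : ∀ x, χ₁ x ≠ 0 := by
    intro x h0
    have := Irred.norm_hom_eq_one χ₁ x
    rw [h0, norm_zero] at this
    exact zero_ne_one this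
  have htr : ∀ x, (ρ' x : Matrix (Fin 2) (Fin 2) ℂ).trace = χ₁ x + χ₂ x := by
    intro x
    have h1 := Irred.eigen_rel (ρ' x : Matrix (Fin 2) (Fin 2) ℂ) v hv0 (c x) (hc x)
    have h2 : χ₂ x = (ρ' x : Matrix (Fin 2) (Fin 2) ℂ).det / c x := rfl
    have h3 : χ₁ x = c x := rfl
    have h4 : c x ≠ 0 := hχ₁ x
    rw [h2, h3]
    field_simp
    linear_combination -h1
  -- the weights
  let φ : (L₀ ≃ₐ[ℚ] L₀) → ℝ := fun x => ‖χ₁ x + χ₂ x‖ ^ 2
  let w : ℕ → ℝ := fun p => if p ∣ N then 0 else ‖ModularFormClass.qCoeff f p‖ ^ 2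
  have hw0 : ∀ p : ℕ, p.Prime → 0 ≤ w p := by
    intro p _
    simp only [w]
    split_ifs <;> positivity
  have hwW : ∀ p : ℕ, p.Prime → w p ≤ 4 := by
    intro p hp
    simp only [w]
    split_ifs with h
    · norm_num
    · have h1 := Irred.norm_coeff_le_two hf p hp h
      have h2 := norm_nonneg (ModularFormClass.qCoeff f p)
      nlinarith
  have hw : ∀ p : ℕ, p.Prime → ¬ p ∣ N → ∀ A : ValuationSubring Qb, A.LiesOverPrime p →
      ∀ σ : GQ, A.IsFrobeniusAt σ p → w p = φ (AlgEquiv.restrictNormalHom L₀ σ) := by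
    intro p hp hpN A hA σ hσ
    have h1 := ((hgood p hp hpN A hA).2 σ hσ).1
    simp only [w, φ, if_neg hpN]
    rw [← htr, hρ', h1]
  have hφinv : ∀ x, φ x⁻¹ = φ x := by
    intro x
    simp only [φ]
    rw [Irred.hom_inv_eq_conj, Irred.hom_inv_eq_conj, ← map_add, Complex.norm_conj]
  obtain ⟨C, hC⟩ := sharp_bound hf (Irred.norm_coeff_le_two hf)
  obtain ⟨c', hc'⟩ := Irred.weighted_cheb L₀ φ (fun x => by positivity) hφinv N (NeZero.ne N) w 4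
    hw0 hwW hw (1 / 2) (by norm_num)
  have hsum := Irred.sum_normSq_ge χ₁ χ₂
  have hcard : (Nat.card (L₀ ≃ₐ[ℚ] L₀) : ℝ) = Fintype.card (L₀ ≃ₐ[ℚ] L₀) := by
    rw [Nat.card_eq_fintype_card]
  have hpos : (0 : ℝ) < Fintype.card (L₀ ≃ₐ[ℚ] L₀) := by exact_mod_cast Fintype.card_pos
  have h2 : 2 ≤ (∑ x, φ x) / (Nat.card (L₀ ≃ₐ[ℚ] L₀) : ℝ) := by
    rw [hcard, le_div_iff₀ hpos]
    exact hsum
  obtain ⟨t, ht, hX⟩ := Irred.LL_unbounded (2 * (C + c'))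
  have h3 : wSum w t ≤ LL t + C := hC t ht
  have h4 := hc' t ht
  have hLL := Irred.LL_nonneg ht.1 ht.2
  have h5 : (2 - 1 / 2) * LL t ≤ ((∑ x, φ x) / (Nat.card (L₀ ≃ₐ[ℚ] L₀) : ℝ) - 1 / 2) * LL t :=
    mul_le_mul_of_nonneg_right (by linarith) hLL
  linarith

end Fermat.Agent.S48
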