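import Fermat.Agent.S48.W1
import Fermat.Agent.S48.GT
import Fermat.Agent.Cheb.Final

/-!
# S48, FIN-1 : the images of the residual representations are bounded

Sketch.  `η = δ = 1/16` (GT now needs proportion `> 3/4`: `card_le_of_few_charpolys` has `hη : η < 1/4`).  `finite_values hf (1/16)` gives `Y`, `C`.  `E = ` the (finite) set of values of `ε`.
`M₀ = 2 * |Y| * |E|`; `card_le_of_few_charpolys (1/8) _ M₀` gives `A₀`, `ℓ₀`.
Let `ℓ ≥ ℓ₀`, `K, φ, ρ` residual.  `G = ρ.range` is finite (finite level: `ρ` factors through `Gal(L/ℚ)`, `L` = normal closure of the level).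
`P₀ = {(φ a, φ e) : a ∈ ℤ̄ ∩ Y, e ∈ ℤ̄ ∩ E}`, `P = P₀ ∪ {(t/d, 1/d) : (t,d) ∈ P₀}`, `T = {g ∈ G : (tr g, det g) ∈ P}`: stable under inversion
(`tr g⁻¹ = tr g / det g`, `det g⁻¹ = 1 / det g`).
`C' = {x ∈ Gal(L/ℚ) : ρ̃ x ∉ T}` (inversion stable).  By `Cheb.chebotarev_lower L C' _ (1/16) _ (N ℓ)`:
`(|C'|/|Gal| - 1/16) LL t - c ≤ pSum {p ∤ Nℓ, Frob_p ∈ C'} t ≤ pSum {p ∤ N, a_p ∉ Y} t ≤ (1/16) LL t + C`
(if `σ` is a Frobenius at `p ∤ Nℓ` then `(tr, det) ρ σ = (φ a_p, φ ε(p))`, so `ρ σ ∉ T` forces `a_p ∉ Y`; `isIntegral_coeff`).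
`LL t → ∞` as `t → 1⁺`: `|C'| ≤ |Gal|/8`; the fibres of `ρ̃ : Gal ↠ G` have the same cardinality: `|T| ≥ (7/8) |G|`.
-/

set_option autoImplicit false

open CongruenceSubgroup
open scoped MatrixGroups

namespace Fermat.Agent.S48

/-- a homomorphism of finite level factors through a finite Galois group. -/
theorem bounded_exists_factor {M : Type} [Group M] (ρ : GQ →* M)
    (h : GaloisFactorsThroughFiniteLevel ρ) :
    ∃ (L : IntermediateField ℚ Qb) (_ : FiniteDimensional ℚ L) (_ : IsGalois ℚ L)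
      (ψ : (L ≃ₐ[ℚ] L) →* M), ∀ σ : GQ, ψ (AlgEquiv.restrictNormalHom L σ) = ρ σ := by
  obtain ⟨L₁, hL₁, h1⟩ := h
  have hnormal : Normal ℚ Qb := Fermat.Agent.S54.isGalois_Lb.to_normal
  have hn2 : Normal ℚ (IntermediateField.normalClosure ℚ L₁ Qb) :=
    normalClosure.normal ℚ L₁ Qb
  have hn3 : FiniteDimensional ℚ (IntermediateField.normalClosure ℚ L₁ Qb) :=
    normalClosure.is_finiteDimensional ℚ L₁ Qb
  set L := IntermediateField.normalClosure ℚ L₁ Qb with hL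
  have hgal : IsGalois ℚ L := ⟨⟩
  set res := AlgEquiv.restrictNormalHom (F := ℚ) (K₁ := Qb) L with hres
  have hsurj : Function.Surjective res := AlgEquiv.restrictNormalHom_surjective Qb
  have hker : res.ker ≤ ρ.ker := by
    intro σ hσ
    rw [MonoidHom.mem_ker] at hσ ⊢
    apply h1
    intro x hx
    have hx' : x ∈ L := IntermediateField.le_normalClosure L₁ hx
    have h2 := AlgEquiv.restrictNormal_commutes σ L ⟨x, hx'⟩
    have h3 : AlgEquiv.restrictNormal σ L = 1 := hσ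
    rw [h3] at h2
    exact h2.symm
  refine ⟨L, hn3, hgal, res.liftOfSurjective hsurj ⟨ρ, hker⟩, fun σ => ?_⟩
  exact MonoidHom.liftOfRightInverse_comp_apply _ _ _ _ σ

/-- a homomorphism of finite level has finite image. -/
theorem finite_range_of_level {M : Type} [Group M] (ρ : GQ →* M)
    (h : GaloisFactorsThroughFiniteLevel ρ) : Finite ρ.range := by
  obtain ⟨L, _, _, ψ, hψ⟩ := bounded_exists_factor ρ h
  have hle : ρ.range ≤ ψ.range := by
    rintro _ ⟨σ, rfl⟩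
    exact ⟨_, hψ σ⟩
  have hfin : Finite (L ≃ₐ[ℚ] L) := inferInstance
  have : Finite ψ.range := Finite.of_surjective ψ.rangeRestrict ψ.rangeRestrict_surjective
  exact Finite.of_injective (Subgroup.inclusion hle) (Subgroup.inclusion_injective hle)

/-- counting preimages. -/
theorem bounded_card_preimage {H M : Type*} [Group H] [Group M] (ψ : H →* M) (S : Set M)
    (hS : S ⊆ ψ.range) : Nat.card (ψ ⁻¹' S) = S.ncard * Nat.card ψ.ker := by
  classical
  choose! s hs using fun y (hy : y ∈ S) => hS hy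
  rw [← Nat.card_coe_set_eq, ← Nat.card_prod]
  refine Nat.card_congr
    { toFun := fun x => (⟨ψ x.1, x.2⟩, ⟨(s (ψ x.1))⁻¹ * x.1, by
        rw [MonoidHom.mem_ker, map_mul, map_inv, hs _ x.2, inv_mul_cancel]⟩)
      invFun := fun y => ⟨s y.1.1 * y.2.1, by
        show ψ (s y.1.1 * y.2.1) ∈ S
        rw [map_mul, hs _ y.1.2, MonoidHom.mem_ker.mp y.2.2, mul_one]
        exact y.1.2⟩
      left_inv := fun x => by
        apply Subtype.ext
        simp
      right_inv := fun y => by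
        have h1 : ψ (s y.1.1 * y.2.1) = y.1.1 := by
          rw [map_mul, hs _ y.1.2, MonoidHom.mem_ker.mp y.2.2, mul_one]
        apply Prod.ext
        · exact Subtype.ext h1
        · apply Subtype.ext
          show (s (ψ (s y.1.1 * y.2.1)))⁻¹ * (s y.1.1 * y.2.1) = y.2.1
          rw [h1, inv_mul_cancel_left] }

theorem bounded_pSum_mono {S S' : Set ℕ} (h : S ⊆ S') {t : ℝ} (ht : 1 < t) :
    pSum S t ≤ pSum S' t := by
  unfold pSum
  rw [tsum_subtype S (fun n : ℕ => (n : ℝ) ^ (-t)), tsum_subtype S' (fun n : ℕ => (n : ℝ) ^ (-t))]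
  have hs : Summable (fun n : ℕ => (n : ℝ) ^ (-t)) := Real.summable_nat_rpow.mpr (by linarith)
  exact (hs.indicator S).tsum_le_tsum
    (fun n => Set.indicator_le_indicator_of_subset h (fun _ => by positivity) n) (hs.indicator S')

theorem bounded_trace_inv {K : Type*} [Field K] (g : GL (Fin 2) K) :
    ((g⁻¹ : GL (Fin 2) K) : Matrix (Fin 2) (Fin 2) K).trace =
      (g : Matrix (Fin 2) (Fin 2) K).trace / (g : Matrix (Fin 2) (Fin 2) K).det := by
  rw [Matrix.coe_units_inv, Matrix.inv_def, Matrix.trace_smul, Matrix.adjugate_fin_two,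
    Ring.inverse_eq_inv', Matrix.trace_fin_two, Matrix.trace_fin_two]
  simp
  ring

theorem bounded_det_inv {K : Type*} [Field K] (g : GL (Fin 2) K) :
    ((g⁻¹ : GL (Fin 2) K) : Matrix (Fin 2) (Fin 2) K).det =
      1 / (g : Matrix (Fin 2) (Fin 2) K).det := by
  rw [Matrix.coe_units_inv, Matrix.det_nonsing_inv, Ring.inverse_eq_inv', one_div]

theorem bounded_det_ne_zero {K : Type*} [Field K] (g : GL (Fin 2) K) :
    (g : Matrix (Fin 2) (Fin 2) K).det ≠ 0 :=
  (Matrix.isUnit_iff_isUnit_det _).mp g.isUnit |>.ne_zero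

theorem bounded_isIntegral_eps {N : ℕ} [NeZero N] (ε : DirichletCharacter ℂ N) (a : ZMod N) :
    IsIntegral ℤ (ε a) := by
  by_cases ha : IsUnit a
  · obtain ⟨u, rfl⟩ := ha
    have h1 : (ε u) ^ (Fintype.card (ZMod N)ˣ) = 1 := by
      rw [← map_pow, ← Units.val_pow_eq_pow_val, pow_card_eq_one, Units.val_one, map_one]
    exact IsIntegral.of_pow Fintype.card_pos (h1 ▸ isIntegral_one)
  · rw [ε.map_nonunit ha]
    exact isIntegral_zero

theorem bounded_le_of_LL {r c : ℝ} (h : ∀ t ∈ Set.Ioc (1 : ℝ) 2, r * LL t ≤ c) : r ≤ 0 := by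
  by_contra hr
  push Not at hr
  set x := (|c| + 1) / r with hx
  have hx0 : 0 < x := by positivity
  have ht : 1 + Real.exp (-x) ∈ Set.Ioc (1 : ℝ) 2 :=
    ⟨by linarith [Real.exp_pos (-x)], by
      have := Real.exp_lt_one_iff.mpr (neg_lt_zero.mpr hx0)
      linarith⟩
  have h1 := h _ ht
  have hLL : LL (1 + Real.exp (-x)) = x := by
    unfold LL
    rw [add_sub_cancel_left, one_div, ← Real.exp_neg, neg_neg, Real.log_exp]
  rw [hLL] at h1
  have h2 : r * x = |c| + 1 := by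
    rw [hx]
    field_simp
  linarith [le_abs_self c]

variable {N : ℕ} [NeZero N] {ε : DirichletCharacter ℂ N} {f : CuspForm (Gamma1 N) 1}

theorem exists_card_bound (hf : IsEigen N ε f) :
    ∃ A₀ ℓ₁ : ℕ, ∀ ℓ : ℕ, ℓ.Prime → ℓ₁ ≤ ℓ → ∀ (K : Type) [Field K] [IsAlgClosed K] [CharP K ℓ]
      (φ : Zb →+* K) (ρ : GQ →* GL (Fin 2) K), IsResidual N ε f ℓ φ ρ → Nat.card ρ.range ≤ A₀ := by
  classical
  obtain ⟨Y, C, hY⟩ := finite_values hf (1 / 16) (by norm_num)
  set E : Finset ℂ := Finset.univ.image (fun a : ZMod N => ε a) with hE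
  obtain ⟨A₀, ℓ₀, hGT⟩ := card_le_of_few_charpolys (1 / 8) (by norm_num) (2 * (Y.card * E.card))
  refine ⟨A₀, ℓ₀, ?_⟩
  intro ℓ hℓ hℓ₀ K _ _ _ φ ρ hρ
  have hfin : Finite ρ.range := finite_range_of_level ρ hρ.level
  have hss : IsSS ρ.range.subtype := by
    intro v hv hstab
    obtain ⟨w, hw1, hw2⟩ := hρ.ss v hv (fun g => hstab ⟨ρ g, g, rfl⟩)
    refine ⟨w, hw1, ?_⟩
    rintro ⟨_, g, rfl⟩
    exact hw2 g
  let φ' : ℂ → K := fun z => if h : IsIntegral ℤ z then φ ⟨z, h⟩ else 0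
  set P₀ : Finset (K × K) := (Y ×ˢ E).image (fun z => (φ' z.1, φ' z.2)) with hP₀
  set P : Finset (K × K) := P₀ ∪ P₀.image (fun z => (z.1 / z.2, 1 / z.2)) with hP
  have hP₀card : P₀.card ≤ Y.card * E.card := by
    rw [← Finset.card_product]
    exact Finset.card_image_le
  have hPcard : P.card ≤ 2 * (Y.card * E.card) := by
    have h1 : P.card ≤ P₀.card + (P₀.image (fun z => (z.1 / z.2, 1 / z.2))).card :=
      Finset.card_union_le _ _
    have h2 : (P₀.image (fun z : K × K => (z.1 / z.2, 1 / z.2))).card ≤ P₀.card :=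
      Finset.card_image_le
    omega
  set T : Set (GL (Fin 2) K) := {g | g ∈ ρ.range ∧
    ((g : Matrix (Fin 2) (Fin 2) K).trace, (g : Matrix (Fin 2) (Fin 2) K).det) ∈ P} with hT
  have hTG : T ⊆ ρ.range := fun g hg => hg.1
  have hTinv : ∀ g ∈ T, g⁻¹ ∈ T := by
    intro g hg
    refine ⟨inv_mem hg.1, ?_⟩
    rw [bounded_trace_inv, bounded_det_inv]
    rcases Finset.mem_union.mp hg.2 with h | h
    · exact Finset.mem_union_right _ (Finset.mem_image.mpr ⟨_, h, rfl⟩)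
    · obtain ⟨⟨t, d⟩, htd, h2⟩ := Finset.mem_image.mp h
      have h3 : t / d = (g : Matrix (Fin 2) (Fin 2) K).trace := congrArg Prod.fst h2
      have h4 : 1 / d = (g : Matrix (Fin 2) (Fin 2) K).det := congrArg Prod.snd h2
      have hd : d ≠ 0 := by
        rintro rfl
        rw [div_zero] at h4
        exact bounded_det_ne_zero g h4.symm
      refine Finset.mem_union_left _ ?_
      rw [← h3, ← h4]
      have h5 : t / d / (1 / d) = t := by field_simp
      have h6 : 1 / (1 / d) = d := by field_simp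
      rw [h5, h6]
      exact htd
  obtain ⟨L, _, _, ψ, hψ⟩ := bounded_exists_factor ρ hρ.level
  have hrange : ∀ x, ψ x ∈ ρ.range := by
    intro x
    have hnormal : Normal ℚ Qb := Fermat.Agent.S54.isGalois_Lb.to_normal
    obtain ⟨σ, rfl⟩ := AlgEquiv.restrictNormalHom_surjective (F := ℚ) (K₁ := L) Qb x
    exact ⟨σ, (hψ σ).symm⟩
  have hrange' : (ρ.range : Set (GL (Fin 2) K)) ⊆ ψ.range := by
    rintro _ ⟨σ, rfl⟩
    exact ⟨_, hψ σ⟩
  set C' : Set (L ≃ₐ[ℚ] L) := {x | ψ x ∉ T} with hC'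
  have hinv : ∀ g ∈ C', g⁻¹ ∈ C' := by
    intro g hg hcon
    apply hg
    have := hTinv _ hcon
    rwa [map_inv, inv_inv] at this
  have hNℓ : N * ℓ ≠ 0 := mul_ne_zero (NeZero.ne N) hℓ.ne_zero
  obtain ⟨c, hc⟩ := Cheb.chebotarev_lower L C' hinv (1 / 16) (by norm_num) (N * ℓ) hNℓ
  have hsub : {p : ℕ | p.Prime ∧ ¬ p ∣ N * ℓ ∧ ∃ A : ValuationSubring Qb, A.LiesOverPrime p ∧
      ∃ σ : Qb ≃ₐ[ℚ] Qb, A.IsFrobeniusAt σ p ∧ AlgEquiv.restrictNormalHom L σ ∈ C'} ⊆
      {p : ℕ | p.Prime ∧ ¬ p ∣ N ∧ ModularFormClass.qCoeff f p ∉ Y} := by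
    rintro p ⟨hp, hpN, A, hA, σ, hσ, hσC⟩
    have hpN' : ¬ p ∣ N := fun h => hpN (h.mul_right _)
    refine ⟨hp, hpN', fun hmem => hσC ?_⟩
    rw [hψ]
    have ha := isIntegral_coeff hf hp hpN'
    have he := bounded_isIntegral_eps ε (p : ZMod N)
    obtain ⟨h1, h2⟩ := ((hρ.good p hp hpN ⟨_, ha⟩ ⟨_, he⟩ rfl rfl) A hA).2 σ hσ
    refine ⟨⟨σ, rfl⟩, Finset.mem_union_left _ ?_⟩
    rw [h1, h2]
    refine Finset.mem_image.mpr ⟨(ModularFormClass.qCoeff f p, ε (p : ZMod N)),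
      Finset.mem_product.mpr ⟨hmem, Finset.mem_image.mpr ⟨_, Finset.mem_univ _, rfl⟩⟩, ?_⟩
    simp only [φ', dif_pos ha, dif_pos he]
  have hratio : (Nat.card C' : ℝ) / Nat.card (L ≃ₐ[ℚ] L) - 1 / 8 ≤ 0 := by
    apply bounded_le_of_LL (c := c + C)
    intro t ht
    have h1 := hc t ht
    have h2 := bounded_pSum_mono hsub ht.1
    have h3 := hY t ht
    unfold pSum at h2 h3
    unfold LL at h3 ⊢
    nlinarith
  have hk : 0 < Nat.card ψ.ker := Nat.card_pos
  have hcard1 : Nat.card C' = ((ρ.range : Set (GL (Fin 2) K)) \ T).ncard * Nat.card ψ.ker := by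
    rw [← bounded_card_preimage ψ _ (Set.sdiff_subset.trans hrange')]
    have h2 : C' = ψ ⁻¹' ((ρ.range : Set (GL (Fin 2) K)) \ T) := by
      ext x
      exact ⟨fun h => ⟨hrange x, h⟩, fun h => h.2⟩
    rw [h2]
  have hcard2 : Nat.card (L ≃ₐ[ℚ] L) = Nat.card ρ.range * Nat.card ψ.ker := by
    have h1 := bounded_card_preimage ψ _ hrange'
    have h2 : ψ ⁻¹' (ρ.range : Set (GL (Fin 2) K)) = Set.univ := by
      ext x
      exact ⟨fun _ => trivial, fun _ => hrange x⟩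
    rw [h2, Nat.card_univ] at h1
    exact h1
  have hcard3 : ((ρ.range : Set (GL (Fin 2) K)) \ T).ncard + T.ncard = Nat.card ρ.range :=
    Set.ncard_sdiff_add_ncard_of_subset hTG (Set.toFinite _)
  refine hGT ℓ hℓ hℓ₀ K ρ.range hss T hTG ?_ P hPcard (fun g hg => hg.2)
  have hG : (0 : ℝ) < Nat.card ρ.range := by exact_mod_cast Nat.card_pos
  have hk' : (0 : ℝ) < Nat.card ψ.ker := by exact_mod_cast hk
  rw [hcard1, hcard2] at hratio
  push_cast at hratio
  rw [mul_div_mul_right _ _ hk'.ne', sub_nonpos, div_le_iff₀ hG] at hratio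
  have h4 : (((ρ.range : Set (GL (Fin 2) K)) \ T).ncard : ℝ) + T.ncard = Nat.card ρ.range := by
    exact_mod_cast hcard3
  linarith

end Fermat.Agent.S48
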