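import Fermat.Agent.S48.Fin.Roots
import Fermat.Agent.S48.LFN
import Fermat.Agent.FD.Main

/-!
# S48, FIN-3 : complex representations `ρ_ℓ` for infinitely many `ℓ`

Sketch.  `A₀`, `A` as before.  `𝒮 ⊆ ℤ̄` = the finite set of all `ζ + ζ'` and `ζ ζ'` (`ζ^A = ζ'^A = 1`).
For each prime `ℓ ≥ ℓ₂` fix `K_ℓ, φ_ℓ, ρ̄_ℓ`, `G_ℓ = range`, `n_ℓ = |G_ℓ| ≤ A₀`, a bijection `e_ℓ : G_ℓ ≃ Fin n_ℓ`, the table `m_ℓ(a,b) = e(e⁻¹a · e⁻¹b)` and
`t_ℓ, d_ℓ : Fin n_ℓ → 𝒮` with `φ_ℓ (t_ℓ a) = tr (e⁻¹ a)`, `φ_ℓ (d_ℓ a) = det (e⁻¹ a)` [every `g ∈ G_ℓ` is `ρ̄(σ')^b` with `σ'` a Frobenius at some `p ∤ Nℓ`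
(`FD.exists_frobenius_pow_eq`); `tr g = φ(α^b + β^b)`, `det g = φ((αβ)^b)`, `α, β` the roots of `X² - a_p X + ε(p)`].
The data `(n, m, t, d)` lie in a finite set: some value is taken for infinitely many `ℓ` (`Finite.exists_infinite_fiber`).
`exists_complex_solution` gives `X : Fin n → M₂(ℂ)`.  For `ℓ` in the fibre put `ρ σ = X (e_ℓ (ρ̄_ℓ σ))`: multiplicative; `det = d a ≠ 0`; `ρ 1` is an invertible idempotent; the level
is that of `ρ̄_ℓ`, `ρ σ = 1` if `ρ̄_ℓ σ = 1`.  For a Frobenius `σ` at `r ∤ Nℓ`: `tr ρ σ ∈ 𝒮`, `a_r ∈ 𝒮`, `φ_ℓ (tr ρ σ) = φ_ℓ (a_r)`; `φ_ℓ` is injective on `𝒮` for `ℓ` large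
(`eq_zero_of_infinitely_many` applied to the finitely many differences; contrapositive).
-/

set_option autoImplicit false

open CongruenceSubgroup
open scoped MatrixGroups

namespace Fermat.Agent.S48

variable {N : ℕ} [NeZero N] {ε : DirichletCharacter ℂ N} {f : CuspForm (Gamma1 N) 1}

/-! ### auxiliary lemmas -/

/-- Cayley-Hamilton for `2 × 2` matrices. -/
theorem lift_sq_eq {R : Type*} [CommRing R] (g : Matrix (Fin 2) (Fin 2) R) :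
    g * g = g.trace • g - g.det • (1 : Matrix (Fin 2) (Fin 2) R) := by
  ext i j
  fin_cases i <;> fin_cases j <;>
    simp [Matrix.mul_apply, Fin.sum_univ_two, Matrix.trace_fin_two, Matrix.det_fin_two] <;> ring

/-- traces of powers are power sums. -/
theorem lift_trace_pow {R : Type*} [CommRing R] (g : Matrix (Fin 2) (Fin 2) R) (x y : R)
    (ht : g.trace = x + y) (hd : g.det = x * y) (b : ℕ) : (g ^ b).trace = x ^ b + y ^ b := by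
  induction b using Nat.twoStepInduction with
  | zero => simp; norm_num
  | one => simpa using ht
  | more b h0 h1 =>
    have e : g ^ (b + 2) = g.trace • g ^ (b + 1) - g.det • g ^ b := by
      rw [pow_add, pow_two, lift_sq_eq, mul_sub, Matrix.mul_smul, Matrix.mul_smul, mul_one,
        ← pow_succ]
    rw [e, Matrix.trace_sub, Matrix.trace_smul, Matrix.trace_smul, h0, h1, ht, hd]
    simp only [smul_eq_mul]
    ring

/-- the roots of a quadratic polynomial. -/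
theorem lift_exists_roots (a e : ℂ) : ∃ α β : ℂ, α + β = a ∧ α * β = e ∧
    α ^ 2 - a * α + e = 0 ∧ β ^ 2 - a * β + e = 0 := by
  obtain ⟨s, hs⟩ := IsAlgClosed.exists_pow_nat_eq (a ^ 2 - 4 * e) (n := 2) two_pos
  refine ⟨(a + s) / 2, (a - s) / 2, by ring, ?_, ?_, ?_⟩
  · linear_combination (-1 / 4 : ℂ) * hs
  · linear_combination (1 / 4 : ℂ) * hs
  · linear_combination (1 / 4 : ℂ) * hs

/-- the finite set of the candidates for traces and determinants. -/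
def candS (A : ℕ) : Set Zb :=
  {x | ∃ ζ ζ' : ℂ, ζ ^ A = 1 ∧ ζ' ^ A = 1 ∧ ((x : ℂ) = ζ + ζ' ∨ (x : ℂ) = ζ * ζ')}

theorem candS_finite {A : ℕ} (hA : 0 < A) : (candS A).Finite := by
  classical
  have hR : {ζ : ℂ | ζ ^ A = 1}.Finite := by
    refine (Polynomial.nthRootsFinset A (1 : ℂ)).finite_toSet.subset ?_
    intro ζ hζ
    exact (Polynomial.mem_nthRootsFinset hA 1).2 hζ
  have hT : (((fun p : ℂ × ℂ => p.1 + p.2) '' ({ζ : ℂ | ζ ^ A = 1} ×ˢ {ζ : ℂ | ζ ^ A = 1})) ∪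
      ((fun p : ℂ × ℂ => p.1 * p.2) '' ({ζ : ℂ | ζ ^ A = 1} ×ˢ {ζ : ℂ | ζ ^ A = 1}))).Finite :=
    ((hR.prod hR).image _).union ((hR.prod hR).image _)
  refine (hT.preimage (Set.injOn_of_injective (Subtype.val_injective (p := fun x : ℂ =>
    x ∈ integralClosure ℤ ℂ)))).subset ?_
  rintro x ⟨ζ, ζ', h1, h2, h | h⟩
  · exact Or.inl ⟨(ζ, ζ'), ⟨h1, h2⟩, h.symm⟩
  · exact Or.inr ⟨(ζ, ζ'), ⟨h1, h2⟩, h.symm⟩

theorem lift_exists_bound (x : Zb) (hx : x ≠ 0) :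
    ∃ B : ℕ, ∀ ℓ : ℕ, B < ℓ → ∀ (K : Type) [Field K] [CharP K ℓ] (φ : Zb →+* K), φ x ≠ 0 := by
  by_contra hcon
  push Not at hcon
  apply hx
  apply eq_zero_of_infinitely_many
  intro B
  obtain ⟨ℓ, hℓ, K, iF, iC, φ, h⟩ := hcon B
  exact ⟨ℓ, hℓ, K, iF, iC, φ, h⟩

/-- for large `ℓ` every `φ` is injective on a given finite set. -/
theorem lift_exists_inj {T : Set Zb} (hT : T.Finite) :
    ∃ B : ℕ, ∀ ℓ : ℕ, B < ℓ → ∀ (K : Type) [Field K] [CharP K ℓ] (φ : Zb →+* K),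
      ∀ x ∈ T, ∀ y ∈ T, φ x = φ y → x = y := by
  classical
  have h : ∀ z : Zb, ∃ B : ℕ, z ≠ 0 → ∀ ℓ : ℕ, B < ℓ → ∀ (K : Type) [Field K] [CharP K ℓ]
      (φ : Zb →+* K), φ z ≠ 0 := by
    intro z
    by_cases hz : z = 0
    · exact ⟨0, fun h => absurd hz h⟩
    · obtain ⟨B, hB⟩ := lift_exists_bound z hz
      exact ⟨B, fun _ => hB⟩
  choose Bf hBf using h
  obtain ⟨B, hB⟩ := (((hT.prod hT).image (fun p : Zb × Zb => Bf (p.1 - p.2)))).bddAbove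
  refine ⟨B, fun ℓ hℓ K _ _ φ x hx y hy hxy => ?_⟩
  by_contra hne
  have h1 : Bf (x - y) ≤ B := hB ⟨(x, y), ⟨hx, hy⟩, rfl⟩
  exact hBf (x - y) (sub_ne_zero.2 hne) ℓ (lt_of_le_of_lt h1 hℓ) K φ (by rw [map_sub, hxy, sub_self])

/-- the exponent property. -/
def HasExp (N : ℕ) [NeZero N] (ε : DirichletCharacter ℂ N) (f : CuspForm (Gamma1 N) 1) (A : ℕ) :
    Prop :=
  ∀ p : ℕ, p.Prime → ¬ p ∣ N → ∀ α : ℂ,
    α ^ 2 - ModularFormClass.qCoeff f p * α + ε (p : ZMod N) = 0 → α ^ A = 1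

/-- `a_p = α + β`, `ε(p) = α β` with `α, β ∈ ℤ̄` roots of unity. -/
theorem HasExp.exists_roots {A : ℕ} (hA : 0 < A) (h : HasExp N ε f A) {p : ℕ} (hp : p.Prime)
    (hpN : ¬ p ∣ N) : ∃ α β : Zb, (α : ℂ) ^ A = 1 ∧ (β : ℂ) ^ A = 1 ∧
      ((α + β : Zb) : ℂ) = ModularFormClass.qCoeff f p ∧ ((α * β : Zb) : ℂ) = ε (p : ZMod N) := by
  obtain ⟨α, β, h1, h2, h3, h4⟩ :=
    lift_exists_roots (ModularFormClass.qCoeff f p) (ε (p : ZMod N))
  have hα := h p hp hpN α h3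
  have hβ := h p hp hpN β h4
  have iα : IsIntegral ℤ α := IsIntegral.of_pow hA (by rw [hα]; exact isIntegral_one)
  have iβ : IsIntegral ℤ β := IsIntegral.of_pow hA (by rw [hβ]; exact isIntegral_one)
  exact ⟨⟨α, iα⟩, ⟨β, iβ⟩, hα, hβ, h1, h2⟩

/-- traces and determinants of a residual representation come from `candS A`. -/
theorem lift_exists_cand {A : ℕ} (hA : 0 < A) (h : HasExp N ε f A) {ℓ : ℕ} (hℓ : ℓ.Prime)
    {K : Type} [Field K] (φ : Zb →+* K) (ρ : GQ →* GL (Fin 2) K) (hρ : IsResidual N ε f ℓ φ ρ)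
    (σ : GQ) : ∃ x ∈ candS A, ∃ y ∈ candS A,
      (ρ σ : Matrix (Fin 2) (Fin 2) K).trace = φ x ∧ (ρ σ : Matrix (Fin 2) (Fin 2) K).det = φ y := by
  obtain ⟨L, hLfin, hL⟩ := hρ.level
  obtain ⟨p, Av, hp, hpB, hAv, ⟨σ', hσ'⟩, hF⟩ := FD.exists_frobenius_pow_eq L (N * ℓ)
    (Nat.mul_ne_zero (NeZero.ne N) hℓ.ne_zero) σ
  obtain ⟨b, hb⟩ := (hF σ' hσ').1
  have hpN : ¬ p ∣ N := fun hd => hpB (Dvd.dvd.mul_right hd ℓ)
  have e1 : ρ σ = ρ σ' ^ b := by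
    have h1 : ρ (σ⁻¹ * σ' ^ b) = 1 := by
      apply hL
      intro x hx
      rw [AlgEquiv.mul_apply, hb x hx]
      exact AlgEquiv.symm_apply_apply σ x
    rw [map_mul, map_inv, map_pow, inv_mul_eq_one] at h1
    exact h1
  obtain ⟨α, β, hα, hβ, ha, he⟩ := h.exists_roots hA hp hpN
  obtain ⟨ht, hd⟩ := (hρ.good p hp hpB (α + β) (α * β) ha he Av hAv).2 σ' hσ'
  rw [map_add] at ht
  rw [map_mul] at hd
  refine ⟨α ^ b + β ^ b, ⟨(α : ℂ) ^ b, (β : ℂ) ^ b, ?_, ?_, Or.inl (by push_cast; rfl)⟩,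
    α ^ b * β ^ b, ⟨(α : ℂ) ^ b, (β : ℂ) ^ b, ?_, ?_, Or.inr (by push_cast; rfl)⟩, ?_, ?_⟩
  · rw [← pow_mul, mul_comm, pow_mul, hα, one_pow]
  · rw [← pow_mul, mul_comm, pow_mul, hβ, one_pow]
  · rw [← pow_mul, mul_comm, pow_mul, hα, one_pow]
  · rw [← pow_mul, mul_comm, pow_mul, hβ, one_pow]
  · rw [e1, Units.val_pow_eq_pow_val, lift_trace_pow _ _ _ ht hd, map_add, map_pow, map_pow]
  · rw [e1, Units.val_pow_eq_pow_val, Matrix.det_pow, hd, map_mul, map_pow, map_pow, mul_pow]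

/-- the combinatorial data `(n, m, t, d)` are realised by a residual representation at `ℓ`. -/
def Realizes (N : ℕ) [NeZero N] (ε : DirichletCharacter ℂ N) (f : CuspForm (Gamma1 N) 1)
    (ℓ n : ℕ) (m : Fin n → Fin n → Fin n) (t d : Fin n → Zb) : Prop :=
  ∃ (K : Type) (_ : Field K) (_ : CharP K ℓ) (φ : Zb →+* K) (ρ : GQ →* GL (Fin 2) K)
    (e : GQ → Fin n), IsResidual N ε f ℓ φ ρ ∧ Function.Surjective e ∧
      (∀ σ τ, e (σ * τ) = m (e σ) (e τ)) ∧ (∀ σ τ, e σ = e τ ↔ ρ σ = ρ τ) ∧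
      ∀ σ, (ρ σ : Matrix (Fin 2) (Fin 2) K).trace = φ (t (e σ)) ∧
        (ρ σ : Matrix (Fin 2) (Fin 2) K).det = φ (d (e σ))

theorem lift_exists_realizes {A : ℕ} (hA : 0 < A) (h : HasExp N ε f A) {ℓ : ℕ} (hℓ : ℓ.Prime)
    {K : Type} [Field K] [CharP K ℓ] (φ : Zb →+* K) (ρ : GQ →* GL (Fin 2) K)
    (hρ : IsResidual N ε f ℓ φ ρ) :
    ∃ (m : Fin (Nat.card ρ.range) → Fin (Nat.card ρ.range) → Fin (Nat.card ρ.range))
      (t d : Fin (Nat.card ρ.range) → candS A),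
      Realizes N ε f ℓ (Nat.card ρ.range) m (fun a => (t a : Zb)) (fun a => (d a : Zb)) := by
  classical
  have : Finite ρ.range := finite_range_of_level ρ hρ.level
  let e₀ : ρ.range ≃ Fin (Nat.card ρ.range) := Finite.equivFin _
  let e : GQ → Fin (Nat.card ρ.range) := fun σ => e₀ (ρ.rangeRestrict σ)
  have hsurj : Function.Surjective e := e₀.surjective.comp ρ.rangeRestrict_surjective
  have hiff : ∀ σ τ, e σ = e τ ↔ ρ σ = ρ τ := by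
    intro σ τ
    constructor
    · intro h1
      exact congrArg Subtype.val (e₀.injective h1)
    · intro h1
      exact congrArg e₀ (Subtype.ext h1)
  choose s hs using hsurj
  choose x hx y hy hxy using fun σ => lift_exists_cand hA h hℓ φ ρ hρ σ
  refine ⟨fun a b => e₀ (e₀.symm a * e₀.symm b), fun a => ⟨x (s a), hx (s a)⟩,
    fun a => ⟨y (s a), hy (s a)⟩, K, inferInstance, inferInstance, φ, ρ, e, hρ,
    fun a => ⟨s a, hs a⟩, ?_, hiff, ?_⟩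
  · intro σ τ
    show e₀ (ρ.rangeRestrict (σ * τ)) = e₀ (e₀.symm (e₀ _) * e₀.symm (e₀ _))
    rw [Equiv.symm_apply_apply, Equiv.symm_apply_apply, map_mul]
  · intro σ
    have h1 : ρ (s (e σ)) = ρ σ := (hiff _ _).1 (hs (e σ))
    have h2 := hxy (s (e σ))
    rw [h1] at h2
    exact h2

/-- the finite type of all possible data. -/
abbrev LiftDat (A₀ A : ℕ) : Type :=
  Σ n : Fin (A₀ + 1), (Fin n → Fin n → Fin n) × (Fin n → candS A) × (Fin n → candS A)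

/-- the pigeonhole principle. -/
theorem lift_pigeonhole {α : Type} [Finite α] (P : ℕ → α → Prop) (B₀ : ℕ)
    (h : ∀ ℓ : ℕ, ℓ.Prime → B₀ ≤ ℓ → ∃ x, P ℓ x) :
    ∃ x, ∀ B : ℕ, ∃ ℓ : ℕ, ℓ.Prime ∧ B < ℓ ∧ P ℓ x := by
  by_contra hcon
  push Not at hcon
  choose Bf hBf using hcon
  obtain ⟨B, hB⟩ := (Set.finite_range Bf).bddAbove
  obtain ⟨ℓ, hℓ1, hℓ2⟩ := Nat.exists_infinite_primes (max B₀ B + 1)
  obtain ⟨x, hx⟩ := h ℓ hℓ2 (by omega)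
  have h1 : Bf x ≤ B := hB ⟨x, rfl⟩
  exact hBf x ℓ hℓ2 (by omega) hx

theorem exists_complex_rep (hf : IsEigen N ε f) (B : ℕ) :
    ∃ ℓ : ℕ, ℓ.Prime ∧ B < ℓ ∧ ∃ ρ : GQ →* GL (Fin 2) ℂ, GaloisFactorsThroughFiniteLevel ρ ∧
      ∀ r : ℕ, r.Prime → ¬ r ∣ N * ℓ →
        GoodAt ρ r (ModularFormClass.qCoeff f r) (ε (r : ZMod N)) := by
  classical
  obtain ⟨ℓ₀, hres⟩ := exists_residual hf
  obtain ⟨A₀, ℓ₁, hcard⟩ := exists_card_bound hf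
  obtain ⟨A, hA, hexp⟩ := exists_exponent hf
  have hexp' : HasExp N ε f A := hexp
  have : Finite (candS A) := (candS_finite hA).to_subtype
  -- pigeonhole
  obtain ⟨⟨n, m, t, d⟩, hx⟩ := lift_pigeonhole (α := LiftDat A₀ A)
    (fun ℓ x => Realizes N ε f ℓ x.1 x.2.1 (fun a => (x.2.2.1 a : Zb)) (fun a => (x.2.2.2 a : Zb)))
    (max ℓ₀ ℓ₁) (by
      intro ℓ hℓ hle
      obtain ⟨K, iF, iA, iC, ⟨φ⟩⟩ := exists_residue_field ℓ hℓ
      obtain ⟨ρ, hρ⟩ := hres ℓ hℓ (le_trans (le_max_left _ _) hle) K φ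
      have hc := hcard ℓ hℓ (le_trans (le_max_right _ _) hle) K φ ρ hρ
      obtain ⟨m, t, d, hR⟩ := lift_exists_realizes hA hexp' hℓ φ ρ hρ
      exact ⟨⟨⟨Nat.card ρ.range, Nat.lt_succ_of_le hc⟩, m, t, d⟩, hR⟩)
  simp only at hx
  -- the complex solution
  obtain ⟨X, hXm, hXtd⟩ := exists_complex_solution n m (fun a => (t a : Zb)) (fun a => (d a : Zb)) (by
    intro B'
    obtain ⟨ℓ, hℓ, hB', K, iF, iC, φ, ρ, e, hρ, hsurj, hmul, hiff, htd⟩ := hx B'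
    choose s hs using hsurj
    refine ⟨ℓ, hB', K, iF, iC, φ, fun a => (ρ (s a) : Matrix (Fin 2) (Fin 2) K), ?_, ?_⟩
    · intro a b
      have h1 : ρ (s a * s b) = ρ (s (m a b)) := by
        rw [← hiff, hmul, hs, hs, hs]
      show (ρ (s a) : Matrix (Fin 2) (Fin 2) K) * (ρ (s b) : Matrix (Fin 2) (Fin 2) K) =
        (ρ (s (m a b)) : Matrix (Fin 2) (Fin 2) K)
      rw [← h1, map_mul]
      rfl
    · intro a
      have := htd (s a)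
      rwa [hs] at this)
  -- the choice of `ℓ`
  obtain ⟨B₁, hinj⟩ := lift_exists_inj (candS_finite hA)
  obtain ⟨ℓ, hℓ, hBℓ, K, iF, iC, φ, ρ, e, hρ, hsurj, hmul, hiff, htd⟩ := hx (max B B₁)
  beta_reduce at htd
  have hdet : ∀ σ, (X (e σ)).det ≠ 0 := by
    intro σ h0
    rw [(hXtd (e σ)).2] at h0
    have h1 : (d (e σ) : Zb) = 0 := Subtype.ext h0
    have h2 := (htd σ).2
    rw [h1, map_zero] at h2
    exact (Matrix.GeneralLinearGroup.det_ne_zero (ρ σ)) h2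
  let R : GQ →* GL (Fin 2) ℂ := MonoidHom.mk'
    (fun σ => Matrix.GeneralLinearGroup.mkOfDetNeZero (X (e σ)) (hdet σ)) (by
      intro σ τ
      apply Units.ext
      show X (e (σ * τ)) = X (e σ) * X (e τ)
      rw [hmul, hXm])
  have hRcoe : ∀ σ, (R σ : Matrix (Fin 2) (Fin 2) ℂ) = X (e σ) := fun σ => rfl
  have hRone : ∀ σ, ρ σ = 1 → R σ = 1 := by
    intro σ h1
    have h2 : e σ = e 1 := by rw [hiff, h1, map_one]
    have h3 : R σ = R 1 := Units.ext (by rw [hRcoe, hRcoe, h2])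
    rw [h3, map_one]
  refine ⟨ℓ, hℓ, lt_of_le_of_lt (le_max_left _ _) hBℓ, R, ?_, ?_⟩
  · obtain ⟨L, hLfin, hL⟩ := hρ.level
    exact ⟨L, hLfin, fun σ hσ => hRone σ (hL σ hσ)⟩
  · intro r hr hrN Av hAv
    have hrN' : ¬ r ∣ N := fun hd => hrN (Dvd.dvd.mul_right hd ℓ)
    obtain ⟨α, β, hα, hβ, ha, he⟩ := hexp'.exists_roots hA hr hrN'
    obtain ⟨g1, g2⟩ := hρ.good r hr hrN (α + β) (α * β) ha he Av hAv
    refine ⟨fun σ hσ => hRone σ (g1 σ hσ), fun σ hσ => ?_⟩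
    obtain ⟨k1, k2⟩ := g2 σ hσ
    have hB₁ : B₁ < ℓ := lt_of_le_of_lt (le_max_right _ _) hBℓ
    have m1 : (α + β : Zb) ∈ candS A := ⟨α, β, hα, hβ, Or.inl (by push_cast; rfl)⟩
    have m2 : (α * β : Zb) ∈ candS A := ⟨α, β, hα, hβ, Or.inr (by push_cast; rfl)⟩
    rw [(htd σ).1] at k1
    rw [(htd σ).2] at k2
    have j1 := hinj ℓ hB₁ K φ _ (t (e σ)).2 _ m1 k1
    have j2 := hinj ℓ hB₁ K φ _ (d (e σ)).2 _ m2 k2
    rw [hRcoe, (hXtd (e σ)).1, (hXtd (e σ)).2, j1, j2]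
    exact ⟨ha, he⟩

end Fermat.Agent.S48
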