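import Fermat.Agent.S48.Fin.Bounded
import Fermat.Agent.S48.Residual
import Fermat.Agent.S29.Residue
import Fermat.Agent.S54.Frob

/-!
# S48, FIN-2 : the roots of `X² - a_p X + ε(p)` are roots of unity of bounded order

Sketch.  `A = A₀!` (`exists_card_bound`).  Let `p ∤ N`, `α² - a_p α + ε(p) = 0`; `α`, `a_p`, `ε(p)` are algebraic integers.
For every prime `ℓ ≥ max ℓ₀ ℓ₁`, `ℓ ≠ p`: take a maximal ideal `𝔪` of `ℤ̄` containing `ℓ`, `K = ℤ̄/𝔪` (algebraically closed:
`Fermat.Agent.S29.isAlgClosed_quotient`), `φ = mk`, `ρ` residual; `σ` a Frobenius element at `p` (`Fermat.Agent.S54.exists_isFrobeniusAt`;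
a valuation subring over `p` exists).  `g = ρ σ` satisfies `g^A = 1` and `φ α` is a root of its characteristic polynomial, hence an
eigenvalue: `(φ α)^A = 1`, `φ (α^A - 1) = 0`.  `eq_zero_of_infinitely_many`: a nonzero algebraic integer `x` lies in maximal ideals over finitely
many `ℓ` only (`ℓ` divides the non zero constant coefficient of `minpoly ℤ x`).
-/

set_option autoImplicit false

open CongruenceSubgroup
open scoped MatrixGroups

namespace Fermat.Agent.S48

variable {N : ℕ} [NeZero N] {ε : DirichletCharacter ℂ N} {f : CuspForm (Gamma1 N) 1}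

/-- a nonzero algebraic integer divides a nonzero integer. -/
theorem roots_exists_int (x : Zb) (hx : x ≠ 0) : ∃ c : ℤ, c ≠ 0 ∧ x ∣ ((c : ℤ) : Zb) := by
  have hint : IsIntegral ℤ x := Algebra.IsIntegral.isIntegral x
  refine ⟨(minpoly ℤ x).coeff 0, ?_, ?_⟩
  · intro h0
    have h1 : (Polynomial.X : Polynomial ℤ) ∣ minpoly ℤ x := Polynomial.X_dvd_iff.mpr h0
    obtain ⟨Q, hQ⟩ := Polynomial.irreducible_X.dvd_symm (minpoly.irreducible hint) h1
    have h2 := congrArg (Polynomial.aeval x) hQ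
    rw [Polynomial.aeval_X, map_mul, minpoly.aeval, zero_mul] at h2
    exact hx h2
  · have h1 : Polynomial.aeval x (minpoly ℤ x) = 0 := minpoly.aeval ℤ x
    rw [← Polynomial.divX_mul_X_add (minpoly ℤ x), map_add, map_mul, Polynomial.aeval_X,
      Polynomial.aeval_C, eq_intCast] at h1
    refine ⟨- Polynomial.aeval x (minpoly ℤ x).divX, ?_⟩
    rw [mul_neg, mul_comm, eq_neg_iff_add_eq_zero, add_comm]
    exact h1

/-- an algebraic integer killed by ring homomorphisms to fields of infinitely many characteristics is zero. -/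
theorem eq_zero_of_infinitely_many (x : Zb)
    (h : ∀ B : ℕ, ∃ ℓ : ℕ, B < ℓ ∧ ∃ (K : Type) (_ : Field K) (_ : CharP K ℓ) (φ : Zb →+* K),
      φ x = 0) : x = 0 := by
  by_contra hx
  obtain ⟨c, hc0, y, hy⟩ := roots_exists_int x hx
  obtain ⟨ℓ, hℓ, K, _, _, φ, hφ⟩ := h c.natAbs
  have h1 : ((c : ℤ) : K) = 0 := by
    have h2 := congrArg φ hy
    rwa [map_intCast, map_mul, hφ, zero_mul] at h2
  rw [CharP.intCast_eq_zero_iff K ℓ c] at h1
  have h3 := Int.natAbs_dvd_natAbs.mpr h1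
  rw [Int.natAbs_natCast] at h3
  have h4 := Nat.le_of_dvd (Int.natAbs_pos.mpr hc0) h3
  omega

/-- residue fields: for every prime `ℓ` there are an algebraically closed field of characteristic `ℓ` and `φ : ℤ̄ → K`. -/
theorem exists_residue_field (ℓ : ℕ) (hℓ : ℓ.Prime) :
    ∃ (K : Type) (_ : Field K) (_ : IsAlgClosed K) (_ : CharP K ℓ), Nonempty (Zb →+* K) := by
  have hpmax : (Ideal.span {(ℓ : ℤ)}).IsMaximal :=
    PrincipalIdealRing.isMaximal_of_irreducible (Nat.prime_iff_prime_int.mp hℓ).irreducible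
  obtain ⟨𝔪, h𝔪, hcomap⟩ := Ideal.exists_ideal_over_maximal_of_isIntegral
    (S := Zb) (Ideal.span {(ℓ : ℤ)}) (by
      rw [(RingHom.injective_iff_ker_eq_bot _).mp (FaithfulSMul.algebraMap_injective ℤ Zb)]
      exact bot_le)
  have hmem : (ℓ : Zb) ∈ 𝔪 := by
    have h1 : (ℓ : ℤ) ∈ 𝔪.comap (algebraMap ℤ Zb) := by
      rw [hcomap]
      exact Ideal.mem_span_singleton_self _
    rw [Ideal.mem_comap, eq_intCast] at h1
    exact_mod_cast h1
  refine ⟨Zb ⧸ 𝔪, Ideal.Quotient.field 𝔪, Fermat.Agent.S29.isAlgClosed_quotient 𝔪, ?_,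
    ⟨Ideal.Quotient.mk 𝔪⟩⟩
  have h0 : ((ℓ : ℕ) : Zb ⧸ 𝔪) = 0 := by
    have := Ideal.Quotient.eq_zero_iff_mem.mpr hmem
    rwa [map_natCast] at this
  have hnt : Nontrivial (Zb ⧸ 𝔪) := Ideal.Quotient.nontrivial_iff.mpr h𝔪.ne_top
  have h1 := ringChar.dvd h0
  rcases (Nat.dvd_prime hℓ).mp h1 with h2 | h2
  · exact absurd h2 CharP.ringChar_ne_one
  · rw [← h2]
    exact ringChar.charP _

/-- a root of the characteristic polynomial of an element of finite order is a root of unity. -/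
theorem roots_pow_eq_one {K : Type*} [Field K] (g : Matrix (Fin 2) (Fin 2) K) (A : ℕ)
    (hg : g ^ A = 1) (c : K) (hc : c ^ 2 - g.trace * c + g.det = 0) : c ^ A = 1 := by
  have hdet : (g - c • (1 : Matrix (Fin 2) (Fin 2) K)).det = 0 := by
    rw [← hc, Matrix.det_fin_two, Matrix.det_fin_two, Matrix.trace_fin_two]
    simp [Matrix.sub_apply, Matrix.smul_apply]
    ring
  obtain ⟨v, hv0, hv⟩ := Matrix.exists_mulVec_eq_zero_iff.mpr hdet
  have hgv : g.mulVec v = c • v := by
    rw [Matrix.sub_mulVec, Matrix.smul_mulVec, Matrix.one_mulVec, sub_eq_zero] at hv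
    exact hv
  have hpow : ∀ n : ℕ, (g ^ n).mulVec v = c ^ n • v := by
    intro n
    induction n with
    | zero => simp
    | succ n ih =>
      rw [pow_succ, ← Matrix.mulVec_mulVec, hgv, Matrix.mulVec_smul, ih, smul_smul, pow_succ,
        mul_comm]
  have h1 := hpow A
  rw [hg, Matrix.one_mulVec] at h1
  obtain ⟨i, hi⟩ := Function.ne_iff.mp hv0
  have h2 := congrFun h1 i
  rw [Pi.smul_apply, smul_eq_mul] at h2
  have hi' : v i ≠ 0 := hi
  have h3 : (c ^ A - 1) * v i = 0 := by rw [sub_mul, one_mul, ← h2, sub_self]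
  rcases mul_eq_zero.mp h3 with h | h
  · exact sub_eq_zero.mp h
  · exact absurd h hi'

theorem roots_isIntegral_eps (ε : DirichletCharacter ℂ N) (a : ZMod N) : IsIntegral ℤ (ε a) := by
  by_cases ha : IsUnit a
  · have h1 : ε a ^ (Nat.card (ZMod N)ˣ) = 1 := by
      obtain ⟨u, rfl⟩ := ha
      rw [← map_pow, ← Units.val_pow_eq_pow_val, pow_card_eq_one', Units.val_one, map_one]
    exact IsIntegral.of_pow (Nat.card_pos) (by rw [h1]; exact isIntegral_one)
  · rw [ε.map_nonunit ha]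
    exact isIntegral_zero

theorem exists_exponent (hf : IsEigen N ε f) :
    ∃ A : ℕ, 0 < A ∧ ∀ p : ℕ, p.Prime → ¬ p ∣ N → ∀ α : ℂ,
      α ^ 2 - ModularFormClass.qCoeff f p * α + ε (p : ZMod N) = 0 → α ^ A = 1 := by
  obtain ⟨A₀, ℓ₁, H1⟩ := exists_card_bound hf
  obtain ⟨ℓ₀, H0⟩ := exists_residual hf
  refine ⟨A₀.factorial, Nat.factorial_pos _, ?_⟩
  intro p hp hpN α hα
  set a : Zb := ⟨ModularFormClass.qCoeff f p, isIntegral_coeff hf hp hpN⟩ with ha
  set e : Zb := ⟨ε (p : ZMod N), roots_isIntegral_eps ε _⟩ with he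
  have hαint : IsIntegral ℤ α := by
    have h1 : IsIntegral Zb α := by
      refine ⟨Polynomial.X ^ 2 - Polynomial.C a * Polynomial.X + Polynomial.C e, ?_, ?_⟩
      · have h2 : (Polynomial.X ^ 2 - Polynomial.C a * Polynomial.X + Polynomial.C e :
            Polynomial Zb) = Polynomial.C 1 * Polynomial.X ^ 2 + Polynomial.C (-a) * Polynomial.X
            + Polynomial.C e := by
          simp only [map_one, map_neg]
          ring
        rw [h2, Polynomial.Monic, Polynomial.leadingCoeff_quadratic one_ne_zero]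
      · simp only [Polynomial.eval₂_add, Polynomial.eval₂_sub, Polynomial.eval₂_mul,
          Polynomial.eval₂_pow, Polynomial.eval₂_X, Polynomial.eval₂_C]
        exact hα
    exact isIntegral_trans α h1
  set α' : Zb := ⟨α, hαint⟩ with hα'
  have hrel : α' ^ 2 - a * α' + e = 0 := Subtype.ext hα
  have hx : α' ^ A₀.factorial - 1 = 0 := by
    apply eq_zero_of_infinitely_many
    intro B
    obtain ⟨ℓ, hℓge, hℓ⟩ := Nat.exists_infinite_primes (B + ℓ₀ + ℓ₁ + p + 1)
    obtain ⟨K, _, _, _, ⟨φ⟩⟩ := exists_residue_field ℓ hℓ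
    refine ⟨ℓ, by omega, K, inferInstance, inferInstance, φ, ?_⟩
    obtain ⟨ρ, hρ⟩ := H0 ℓ hℓ (by omega) K φ
    have hcard := H1 ℓ hℓ (by omega) K φ ρ hρ
    obtain ⟨Av, hAv⟩ := Fermat.Agent.S54.exists_liesOverPrime hp
    obtain ⟨σ, hσ⟩ := Fermat.Agent.S54.exists_isFrobeniusAt Av hp hAv
    have hpNℓ : ¬ p ∣ N * ℓ := by
      intro hd
      rcases (Nat.Prime.dvd_mul hp).mp hd with h | h
      · exact hpN h
      · have := (Nat.prime_dvd_prime_iff_eq hp hℓ).mp h
        omega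
    obtain ⟨htr, hdet⟩ := ((hρ.good p hp hpNℓ a e rfl rfl) Av hAv).2 σ hσ
    have hfin : Finite ρ.range := finite_range_of_level ρ hρ.level
    have hpow : (ρ σ) ^ A₀.factorial = 1 := by
      have h1 : orderOf (⟨ρ σ, σ, rfl⟩ : ρ.range) ∣ A₀.factorial :=
        Nat.dvd_factorial (orderOf_pos _) ((Nat.le_of_dvd Nat.card_pos (orderOf_dvd_natCard _)).trans hcard)
      have h2 := orderOf_dvd_iff_pow_eq_one.mp h1
      exact congrArg Subtype.val h2
    have hpow' : ((ρ σ : GL (Fin 2) K) : Matrix (Fin 2) (Fin 2) K) ^ A₀.factorial = 1 := by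
      rw [← Units.val_pow_eq_pow_val, hpow, Units.val_one]
    have h3 := roots_pow_eq_one _ _ hpow' (φ α') (by
      rw [htr, hdet, ← map_pow, ← map_mul, ← map_sub, ← map_add, hrel, map_zero])
    rw [map_sub, map_pow, h3, map_one, sub_self]
  have h4 := congrArg Subtype.val (sub_eq_zero.mp hx)
  exact h4

end Fermat.Agent.S48
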